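import Mathlib
import Fermat.Prelude.Thm_ModularForm_sturm_bound_Gamma0

/-! Vanishing of weight two cusp forms on levels one and two via the Sturm bound. -/

set_option autoImplicit false

open CongruenceSubgroup UpperHalfPlane
open scoped MatrixGroups

namespace FLTA.Endgame

theorem cuspForm_two_eq_zero_of_index {N : ℕ} [NeZero N] (h : (Gamma0 N).index < 6)
    (f : CuspForm (Gamma0 N) 2) : f = 0 := by
  let g : ModularForm (Gamma0 N) 2 := ⟨f.toSlashInvariantForm, f.holo',
    fun hc γ hγ => (f.zero_at_cusps' hc γ hγ).isBoundedAtImInfty⟩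
  have hg : (g : ℍ → ℂ) = f := rfl
  have h0 : g = 0 := by
    refine ModularForm.sturm_bound_Gamma0 N g fun n hn => ?_
    have hn0 : n = 0 := by
      have : (2 * ((Gamma0 N).index : ℤ)).toNat < 12 := by omega
      rw [Nat.div_eq_of_lt this] at hn
      omega
    subst hn0
    rw [hg]
    exact CuspFormClass.qExpansion_coeff_zero f one_pos (by simp)
  ext z
  have := congrArg (fun u : ModularForm (Gamma0 N) 2 => u z) h0
  exact this

theorem index_Gamma0_two_lt : (Gamma0 2).index < 6 := by
  have hle : Gamma 2 ≤ Gamma0 2 := fun A hA => by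
    rw [Gamma_mem] at hA; exact Gamma0_mem.2 hA.2.2.1
  have hmul := Subgroup.relIndex_mul_index hle
  have h1 : (Gamma 2).relIndex (Gamma0 2) ≠ 1 := by
    intro h
    rw [Subgroup.relIndex_eq_one] at h
    have hT : ModularGroup.T ∈ Gamma0 2 := by simp [Gamma0_mem, ModularGroup.coe_T]
    have := Gamma_mem.1 (h hT)
    simp [ModularGroup.coe_T] at this
  have h0 : (Gamma 2).relIndex (Gamma0 2) ≠ 0 := fun h => by
    rw [h, zero_mul] at hmul
    exact (Subgroup.FiniteIndex.index_ne_zero : (Gamma 2).index ≠ 0) hmul.symm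
  have h6 : (Gamma 2).index ≤ 6 := by
    rw [show (Gamma 2) = (Matrix.SpecialLinearGroup.map (Int.castRingHom (ZMod 2))).ker from rfl,
      Subgroup.index_ker]
    refine (Subgroup.card_le_card_group _).trans ?_
    rw [Nat.card_eq_fintype_card]
    decide
  have hi : (Gamma0 2).index ≠ 0 := Subgroup.FiniteIndex.index_ne_zero
  nlinarith [hmul, h6, (by omega : 2 ≤ (Gamma 2).relIndex (Gamma0 2))]

theorem index_Gamma0_one_lt : (Gamma0 1).index < 6 := by
  have : Gamma0 1 = ⊤ := Subgroup.eq_top_iff' _ |>.2 fun A => Gamma0_mem.2 (Subsingleton.elim _ _)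
  rw [this, Subgroup.index_top]; norm_num

end FLTA.Endgame
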