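import Mathlib
import Fermat.Prelude.Def_CuspForm_IntegralLattice
import Fermat.Prelude.Def_FormalHecke_Eigensystem
import Fermat.Agent.Hecke.EigenChar

/-! Lifting a mod three eigensystem realised in an integral lattice to an eigenform. -/

set_option autoImplicit false

noncomputable section

open ModularFormClass CongruenceSubgroup EisensteinWeightOne
open scoped IsMulCommutative

namespace FLTA.Endgame

variable {N : ℕ}

/-- All q-coefficients are integers divisible by three. -/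
def ThreeDvd (g : CuspForm (Gamma0 N) 2) : Prop :=
  ∀ n : ℕ, ∃ m : ℤ, qCoeff g n = ((3 * m : ℤ) : ℂ)

theorem ThreeDvd.add {f g : CuspForm (Gamma0 N) 2} (hf : ThreeDvd f) (hg : ThreeDvd g) :
    ThreeDvd (f + g) := fun n => by
  obtain ⟨a, ha⟩ := hf n
  obtain ⟨b, hb⟩ := hg n
  exact ⟨a + b, by rw [Hecke.qCoeff_add, ha, hb]; push_cast; ring⟩

theorem ThreeDvd.zero : ThreeDvd (0 : CuspForm (Gamma0 N) 2) := fun n =>
  ⟨0, by rw [Hecke.qCoeff_zero]; simp⟩

theorem ThreeDvd.smul {f : CuspForm (Gamma0 N) 2} (hf : ThreeDvd f) (c : ℤ) :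
    ThreeDvd ((c : ℂ) • f) := fun n => by
  obtain ⟨a, ha⟩ := hf n
  exact ⟨c * a, by rw [Hecke.qCoeff_smul, ha]; push_cast; ring⟩

theorem ThreeDvd.apply [NeZero N] {f : CuspForm (Gamma0 N) 2} (hf : ThreeDvd f)
    (t : CuspForm.heckeAlgebra N 2 ∅) :
    ThreeDvd ((t : Module.End ℂ (CuspForm (Gamma0 N) 2)) f) := fun n => by
  have hL : (3⁻¹ : ℂ) • f ∈ CuspForm.intLattice N 2 := Hecke.mem_intLattice_of_intCoeff fun m => by
    obtain ⟨a, ha⟩ := hf m
    exact ⟨a, by rw [Hecke.qCoeff_smul, ha]; push_cast; ring⟩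
  obtain ⟨b, hb⟩ := Hecke.exists_intCoeff_of_mem_intLattice
    (CuspForm.mem_intLattice_of_mem_heckeAlgebra one_le_two t.2 hL) n
  rw [map_smul, Hecke.qCoeff_smul] at hb
  exact ⟨b, by push_cast; rw [← hb]; ring⟩

theorem natCast_zmod_three_eq_chiNegThree (ℓ : ℕ) :
    ((chiNegThree ℓ : ℤ) : ZMod 3) = (ℓ : ZMod 3) := by
  rw [← ZMod.natCast_mod ℓ 3, chiNegThree]
  have : ℓ % 3 < 3 := Nat.mod_lt _ (by norm_num)
  interval_cases ℓ % 3 <;> decide

theorem coeff_bridgeProduct_zmod (a : ℕ → ℤ) (n : ℕ) :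
    (((bridgeProduct a).coeff n : ℤ) : ZMod 3) = (a n : ZMod 3) := by
  have h1 : PowerSeries.map (Int.castRingHom (ZMod 3)) (e1Chi3In ℤ) = 1 := by
    ext k
    rw [PowerSeries.coeff_map, e1Chi3In, PowerSeries.coeff_map, e1Chi3, PowerSeries.coeff_mk,
      PowerSeries.coeff_one]
    split_ifs with hk
    · simp
    · have h6 : (6 : ZMod 3) = 0 := by decide
      simp [h6]
  have := PowerSeries.coeff_map (Int.castRingHom (ZMod 3)) n (bridgeProduct a)
  rw [bridgeProduct, map_mul, h1, mul_one, PowerSeries.coeff_map, PowerSeries.coeff_mk] at this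
  exact this.symm

theorem exists_eigenform_congruent [NeZero N] (h : CuspForm.HasIntegralBasis N) {a : ℕ → ℤ}
    (heig : FormalHecke.IsEigensystem
      (fun ℓ => if ℓ ∣ N then 0 else ((chiNegThree ℓ : ℤ) : ℤ)) a)
    (hreal : CuspForm.IsLatticeRealized N a) :
    ∃ (f : CuspForm (Gamma0 N) 2) (_ : f.IsNormalizedEigenform)
      (𝔪' : Ideal (integralClosure ℤ ℂ)), 𝔪'.IsMaximal ∧
      ((3 : ℕ) : integralClosure ℤ ℂ) ∈ 𝔪' ∧
      ∀ (ℓ : ℕ) (_ : ℓ.Prime) (_ : ¬ ℓ ∣ N),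
        ∃ c : integralClosure ℤ ℂ, (c : ℂ) = ModularFormClass.qCoeff f ℓ ∧
          c - (a ℓ : integralClosure ℤ ℂ) ∈ 𝔪' := by
  obtain ⟨g, hgint, af, haf, hafdvd⟩ := hreal
  have hafa : ∀ n, ((af n : ℤ) : ZMod 3) = (a n : ZMod 3) := fun n => by
    have := (ZMod.intCast_zmod_eq_zero_iff_dvd _ 3).2 (hafdvd n)
    rw [Int.cast_sub, coeff_bridgeProduct_zmod, sub_eq_zero] at this
    exact this
  have hstr : CuspForm.HasIntegralStructure N 2 := by
    refine top_unique ?_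
    rw [← (show Submodule.span ℂ (CuspForm.qIntegralSet N) = ⊤ from h)]
    refine Submodule.span_mono fun x hx => Hecke.mem_intLattice_of_intCoeff fun n => ?_
    obtain ⟨m, hm⟩ := Subring.mem_bot.1 (hx n)
    exact ⟨m, hm.symm⟩
  -- congruence of an operator with a scalar on `g`
  let Cong : Module.End ℂ (CuspForm (Gamma0 N) 2) → ℤ → Prop := fun t c =>
    ThreeDvd (t g + ((-c : ℤ) : ℂ) • g)
  have hgen : ∀ t ∈ CuspForm.heckeGenerators N 2 ∅, ∀ p : ℕ,
      ((∃ (hp : p.Prime) (hpN : ¬ p ∣ N), t = CuspForm.heckeTLin 2 hp hpN) ∨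
        (∃ (_ : p.Prime) (hpN : p ∣ N), t = CuspForm.heckeULin 2 hpN)) → Cong t (a p) := by
    intro t _ p hp n
    have hp' : p.Prime := by rcases hp with ⟨hp, -, -⟩ | ⟨hp, -, -⟩ <;> exact hp
    have e := congrArg (Int.cast : ℤ → ZMod 3) (heig.2 p hp' n)
    push_cast at e
    simp only [← hafa] at e
    rcases hp with ⟨hp, hpN, rfl⟩ | ⟨hp, hpN, rfl⟩
    · rw [if_neg hpN, natCast_zmod_three_eq_chiNegThree] at e
      obtain ⟨m, hm⟩ := (ZMod.intCast_zmod_eq_zero_iff_dvd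
        (af (n * p) + (if p ∣ n then (p : ℤ) * af (n / p) else 0) - a p * af n) 3).1 (by
          rw [mul_comm n p]
          push_cast [apply_ite (Int.cast : ℤ → ZMod 3), ← hafa]
          rw [sub_eq_zero, ← e]
          split_ifs <;> simp)
      refine ⟨m, ?_⟩
      rw [Hecke.qCoeff_add, Hecke.qCoeff_smul, Hecke.qCoeff_heckeTLin_two hp hpN, ← haf, ← haf,
        ← haf, ← show ((af (n * p) + (if p ∣ n then (p : ℤ) * af (n / p) else 0) - a p * af n : ℤ)
          : ℂ) = ((3 * m : ℤ) : ℂ) by exact_mod_cast hm]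
      split_ifs <;> push_cast <;> ring
    · rw [if_pos hpN, zero_mul, add_zero] at e
      obtain ⟨m, hm⟩ := (ZMod.intCast_zmod_eq_zero_iff_dvd (af (n * p) - a p * af n) 3).1 (by
          rw [mul_comm n p]
          push_cast [← hafa]
          rw [e, sub_self])
      refine ⟨m, ?_⟩
      rw [Hecke.qCoeff_add, Hecke.qCoeff_smul, Hecke.qCoeff_heckeULin hp hpN, ← haf, ← haf,
        ← show ((af (n * p) - a p * af n : ℤ) : ℂ) = ((3 * m : ℤ) : ℂ) by exact_mod_cast hm]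
      push_cast; ring
  have hcong : ∀ t ∈ CuspForm.heckeAlgebra N 2 ∅, ∃ c : ℤ, Cong t c := fun t ht => by
    induction ht using Algebra.adjoin_induction with
    | mem x hx =>
      obtain ⟨p, hp⟩ : ∃ p : ℕ, (∃ (hp : p.Prime) (hpN : ¬ p ∣ N),
          x = CuspForm.heckeTLin 2 hp hpN) ∨
          (∃ (_ : p.Prime) (hpN : p ∣ N), x = CuspForm.heckeULin 2 hpN) := by
        rcases hx with ⟨p, hp, hpN, -, rfl⟩ | ⟨p, hpN, hp, -, rfl⟩
        · exact ⟨p, Or.inl ⟨hp, hpN, rfl⟩⟩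
        · exact ⟨p, Or.inr ⟨hp, hpN, rfl⟩⟩
      exact ⟨a p, hgen x hx p hp⟩
    | algebraMap r =>
      refine ⟨r, ?_⟩
      simp only [Cong, Module.algebraMap_end_apply, Int.cast_neg, ← Int.cast_smul_eq_zsmul ℂ r g,
        neg_smul, add_neg_cancel]
      exact ThreeDvd.zero
    | add x y _ _ hx hy =>
      obtain ⟨c, hc⟩ := hx
      obtain ⟨d, hd⟩ := hy
      refine ⟨c + d, ?_⟩
      convert! hc.add hd using 1
      rw [LinearMap.add_apply]; push_cast; module
    | mul x y hx' hy' hx hy =>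
      obtain ⟨c, hc⟩ := hx
      obtain ⟨d, hd⟩ := hy
      refine ⟨c * d, ?_⟩
      convert! (hd.apply ⟨x, hx'⟩).add (hc.smul d) using 1
      rw [map_add, map_smul, Module.End.mul_apply]; push_cast; module
  -- the prime ideal of the mod three eigenvector
  let 𝔭 : Ideal (CuspForm.heckeAlgebra N 2 ∅) :=
    { carrier := {t | ThreeDvd ((t : Module.End ℂ (CuspForm (Gamma0 N) 2)) g)}
      add_mem' := fun hs ht => hs.add ht
      zero_mem' := ThreeDvd.zero
      smul_mem' := fun s _ ht => ht.apply s }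
  have haf1 : ¬ (3 : ℤ) ∣ af 1 := fun h3 => by
    have := (ZMod.intCast_zmod_eq_zero_iff_dvd (af 1) 3).2 h3
    rw [hafa, heig.1, Int.cast_one] at this
    exact one_ne_zero this
  have hdvd : ∀ c : ℤ, ThreeDvd ((c : ℂ) • g) → (3 : ℤ) ∣ c := fun c hc => by
    obtain ⟨m, hm⟩ := hc 1
    rw [Hecke.qCoeff_smul, ← haf, ← Int.cast_mul, Int.cast_inj] at hm
    exact (Int.Prime.dvd_mul' (by norm_num : Nat.Prime 3) ⟨m, hm⟩).resolve_right haf1
  haveI : 𝔭.IsPrime := by
    refine Ideal.isPrime_iff.2 ⟨fun h1 => ?_, fun {s t} hst => ?_⟩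
    · have : (1 : CuspForm.heckeAlgebra N 2 ∅) ∈ 𝔭 := h1 ▸ Submodule.mem_top
      have h31 : (3 : ℤ) ∣ 1 := hdvd 1 (by rw [Int.cast_one, one_smul]; exact this)
      norm_num at h31
    · obtain ⟨c, hc⟩ := hcong s s.2
      obtain ⟨d, hd⟩ := hcong t t.2
      have h1 := ((hd.apply s).add (hc.smul d)).smul (-1)
      have h2 : ThreeDvd ((((c * d : ℤ)) : ℂ) • g) := by
        have hst' : ThreeDvd ((s : Module.End ℂ (CuspForm (Gamma0 N) 2))
            ((t : Module.End ℂ (CuspForm (Gamma0 N) 2)) g)) := hst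
        convert! h1.add hst' using 1
        rw [map_add, map_smul]; push_cast; module
      rcases Int.Prime.dvd_mul' (by norm_num : Nat.Prime 3) (hdvd _ h2) with ⟨e, rfl⟩ | ⟨e, rfl⟩
      · left
        have he : ThreeDvd (((3 * e : ℤ) : ℂ) • g) := fun n =>
          ⟨e * af n, by rw [Hecke.qCoeff_smul, ← haf]; push_cast; ring⟩
        show ThreeDvd _
        convert! hc.add he using 1
        push_cast; module
      · right
        have he : ThreeDvd (((3 * e : ℤ) : ℂ) • g) := fun n =>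
          ⟨e * af n, by rw [Hecke.qCoeff_smul, ← haf]; push_cast; ring⟩
        show ThreeDvd _
        convert! hd.add he using 1
        push_cast; module
  obtain ⟨f, χ, hf, -, hint, hker, hχT, -⟩ := Hecke.exists_eigenform_char_ker_le hstr 𝔭
  let φ : CuspForm.heckeAlgebra N 2 ∅ →+* integralClosure ℤ ℂ := χ.codRestrict _ hint
  have hφker : RingHom.ker φ ≤ 𝔭 := fun t ht => hker (congrArg Subtype.val ht : χ t = 0)
  letI := φ.toAlgebra
  haveI : Algebra.IsIntegral ℤ (integralClosure ℤ ℂ) := integralClosure.AlgebraIsIntegral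
  haveI : IsScalarTower ℤ (CuspForm.heckeAlgebra N 2 ∅) (integralClosure ℤ ℂ) :=
    IsScalarTower.of_algebraMap_eq fun r => (map_intCast φ r).symm
  haveI : Algebra.IsIntegral (CuspForm.heckeAlgebra N 2 ∅) (integralClosure ℤ ℂ) :=
    ⟨fun x => (Algebra.IsIntegral.isIntegral (R := ℤ) x).tower_top⟩
  obtain ⟨Q, -, hQ, hQc⟩ := Ideal.exists_ideal_over_prime_of_isIntegral 𝔭
    (⊥ : Ideal (integralClosure ℤ ℂ)) hφker
  obtain ⟨M, hM, hQM⟩ := Ideal.exists_le_maximal Q hQ.ne_top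
  have hmem : ∀ t ∈ 𝔭, φ t ∈ M := fun t ht => by
    rw [← hQc] at ht
    exact hQM ht
  refine ⟨f, hf, M, hM, ?_, fun ℓ hℓ hℓN => ?_⟩
  · rw [← map_natCast φ]
    refine hmem _ fun n => ⟨af n, ?_⟩
    rw [show ((3 : ℕ) : CuspForm.heckeAlgebra N 2 ∅) = ((3 : ℤ) : CuspForm.heckeAlgebra N 2 ∅) by
      norm_num, ← eq_intCast (algebraMap ℤ (CuspForm.heckeAlgebra N 2 ∅)), Subalgebra.coe_algebraMap,
      Module.algebraMap_end_apply, ← Int.cast_smul_eq_zsmul ℂ, Hecke.qCoeff_smul, ← haf]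
    push_cast; ring
  · refine ⟨φ (CuspForm.heckeAlgebra.T hℓ hℓN (Set.notMem_empty ℓ)), hχT ℓ hℓ hℓN, ?_⟩
    rw [← map_intCast φ, ← map_sub]
    refine hmem _ ?_
    show ThreeDvd _
    convert! hgen (CuspForm.heckeTLin 2 hℓ hℓN)
      (CuspForm.heckeTLin_mem_heckeGenerators hℓ hℓN (Set.notMem_empty ℓ)) ℓ
      (Or.inl ⟨hℓ, hℓN, rfl⟩) using 1
    rw [← eq_intCast (algebraMap ℤ (CuspForm.heckeAlgebra N 2 ∅)), Subalgebra.coe_sub, Subalgebra.coe_algebraMap,
      LinearMap.sub_apply, Module.algebraMap_end_apply, ← Int.cast_smul_eq_zsmul ℂ,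
      CuspForm.heckeAlgebra.coe_T]
    push_cast; module

end FLTA.Endgame

end
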